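import Fermat.Agent.H7.Frob.Interfaces
import Fermat.Agent.H62.IdealZeta
import Fermat.Agent.H15.S14Neg

/-!
# P-FROB / FD-1 (helper33): logarithmic mass of the degree-one primes of a number field

`∑_{v, N(v) prime} N(v)^{-s} = log (1 / (s - 1)) + O(1)` uniformly for `s ∈ (1, 2]`.

Inputs: the Euler product bounds `exp (∑_v N(v)^{-s}) ≤ ζ_K(s) ≤ exp (∑_v N(v)^{-s} + 2 ∑_v N(v)^{-2})`
and the simple pole of `ζ_K` (`Fermat.Agent.H62.IdealZeta`), and the convergence of
`∑ 1 / N(v)` over the primes of residue degree `≥ 2` (`Fermat.Agent.H15.S14Neg`).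
-/

set_option autoImplicit false

open Filter Topology IsDedekindDomain NumberField Ideal

namespace Fermat.Agent.H33.Frob

open Fermat.Agent.H62

variable (K : Type*) [Field K] [NumberField K]

/-- `ζ_K` is antitone on `(1, ∞)`. -/
lemma idealZeta_anti {s t : ℝ} (hs : 1 < s) (hst : s ≤ t) : idealZeta K t ≤ idealZeta K s := by
  have ht : 1 < t := lt_of_lt_of_le hs hst
  refine (summable_absNorm_rpow K ht).tsum_le_tsum (fun I => ?_) (summable_absNorm_rpow K hs)
  rcases Nat.eq_zero_or_pos (absNorm I) with h0 | hpos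
  · rw [h0]
    have h1 : -t ≠ 0 := by linarith
    have h2 : -s ≠ 0 := by linarith
    simp [Real.zero_rpow h1, Real.zero_rpow h2]
  · exact Real.rpow_le_rpow_of_exponent_le (by exact_mod_cast hpos) (by linarith)

/-- `(s - 1) ζ_K(s)` is bounded above and below by positive constants on `(1, 2]`. -/
lemma exists_bounds_sub_one_mul_idealZeta :
    ∃ m M : ℝ, 0 < m ∧ 0 < M ∧ ∀ s : ℝ, 1 < s → s ≤ 2 →
      m ≤ (s - 1) * idealZeta K s ∧ (s - 1) * idealZeta K s ≤ M := by
  have hres := dedekindZeta_residue_pos K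
  obtain ⟨u, hu, hsub⟩ := mem_nhdsGT_iff_exists_Ioo_subset.mp (eventually_idealZeta_bounds K)
  have hu1 : (1 : ℝ) < u := hu
  -- the midpoint `s₀` of `(1, u)`
  set s₀ : ℝ := (1 + u) / 2 with hs₀
  have hs₀1 : 1 < s₀ := by rw [hs₀]; linarith
  have hs₀u : s₀ < u := by rw [hs₀]; linarith
  have hz₀ : 1 ≤ idealZeta K s₀ := one_le_idealZeta K hs₀1
  refine ⟨min (dedekindZeta_residue K / 2) (s₀ - 1),
    max (2 * dedekindZeta_residue K) (idealZeta K s₀), ?_, ?_, ?_⟩
  · exact lt_min (by linarith) (by linarith)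
  · exact lt_max_of_lt_left (by linarith)
  · intro s hs hs2
    by_cases hsu : s < u
    · have h := hsub (show s ∈ Set.Ioo 1 u from ⟨hs, hsu⟩)
      exact ⟨(min_le_left _ _).trans h.1, h.2.trans (le_max_left _ _)⟩
    · have hsu' : u ≤ s := not_lt.mp hsu
      have hs₀s : s₀ ≤ s := hs₀u.le.trans hsu'
      have hz1 : 1 ≤ idealZeta K s := one_le_idealZeta K hs
      have hz2 : idealZeta K s ≤ idealZeta K s₀ := idealZeta_anti K hs₀1 hs₀s
      constructor
      · refine (min_le_right _ _).trans ?_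
        have : s₀ - 1 ≤ s - 1 := by linarith
        nlinarith
      · refine le_trans ?_ (le_max_right _ _)
        have h1 : s - 1 ≤ 1 := by linarith
        have h0 : 0 ≤ s - 1 := by linarith
        nlinarith

/-- `log ζ_K(s) = log (1 / (s - 1)) + O(1)` on `(1, 2]`. -/
lemma exists_bound_log_idealZeta :
    ∃ B : ℝ, ∀ s : ℝ, 1 < s → s ≤ 2 →
      |Real.log (idealZeta K s) - Real.log (1 / (s - 1))| ≤ B := by
  obtain ⟨m, M, hm, hM, h⟩ := exists_bounds_sub_one_mul_idealZeta K
  refine ⟨max |Real.log m| |Real.log M|, fun s hs hs2 => ?_⟩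
  obtain ⟨h1, h2⟩ := h s hs hs2
  have hs0 : 0 < s - 1 := by linarith
  have hz : 0 < idealZeta K s := idealZeta_pos K hs
  have hprod : 0 < (s - 1) * idealZeta K s := mul_pos hs0 hz
  have e : Real.log (idealZeta K s) - Real.log (1 / (s - 1)) =
      Real.log ((s - 1) * idealZeta K s) := by
    rw [Real.log_mul hs0.ne' hz.ne', one_div, Real.log_inv]
    ring
  rw [e, abs_le]
  have hlo : Real.log m ≤ Real.log ((s - 1) * idealZeta K s) := Real.log_le_log hm h1
  have hhi : Real.log ((s - 1) * idealZeta K s) ≤ Real.log M := Real.log_le_log hprod h2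
  constructor
  · have : -|Real.log m| ≤ Real.log m := neg_abs_le _
    have : |Real.log m| ≤ max |Real.log m| |Real.log M| := le_max_left _ _
    linarith
  · have : Real.log M ≤ |Real.log M| := le_abs_self _
    have : |Real.log M| ≤ max |Real.log m| |Real.log M| := le_max_right _ _
    linarith

/-- `∑_v N(v)^{-s} = log ζ_K(s) + O(1)` on `(1, 2]`, with explicit constants. -/
lemma primeZetaSum_bounds {s : ℝ} (hs : 1 < s) :
    Real.log (idealZeta K s) - 2 * primeZetaSum K 2 ≤ primeZetaSum K s ∧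
      primeZetaSum K s ≤ Real.log (idealZeta K s) := by
  have hz : 0 < idealZeta K s := idealZeta_pos K hs
  constructor
  · have h := idealZeta_le_exp K hs
    have h' := Real.log_le_log hz h
    rw [Real.log_exp] at h'
    linarith
  · have h := exp_primeZetaSum_le K hs
    have h' := Real.log_le_log (Real.exp_pos _) h
    rwa [Real.log_exp] at h'

/-- the set of degree-one primes -/
def degOne : Set (HeightOneSpectrum (𝓞 K)) := {v | (absNorm v.asIdeal).Prime}

/-- The primes of degree `≥ 2` contribute `O(1)`. -/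
lemma exists_bound_not_degOne :
    ∃ C : ℝ, ∀ s : ℝ, 1 < s →
      0 ≤ ∑' v : ↥(degOne K)ᶜ, primeTerm K s v.1 ∧
        ∑' v : ↥(degOne K)ᶜ, primeTerm K s v.1 ≤ C := by
  have hsum := Fermat.Agent.H15.summable_inv_absNorm_not_degOne K 0
  -- transport to the complement of `degOne`
  have hset : {v : HeightOneSpectrum (𝓞 K) |
      ¬ (absNorm v.asIdeal).Prime ∨ absNorm v.asIdeal = 0} = (degOne K)ᶜ := by
    ext v
    simp only [Set.mem_ofPred_eq, Set.mem_compl_iff, degOne]
    constructor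
    · rintro (h | h)
      · exact h
      · exact absurd h (Fermat.Agent.H15.absNorm_ne_zero' v)
    · intro h
      exact Or.inl h
  have hsum'' : Summable (fun v : ↥{v : HeightOneSpectrum (𝓞 K) |
      ¬ (absNorm v.asIdeal).Prime ∨ absNorm v.asIdeal = 0} =>
        ((absNorm v.1.asIdeal : ℝ))⁻¹) := hsum
  have hsum' : Summable (fun v : ↥(degOne K)ᶜ => ((absNorm v.1.asIdeal : ℝ))⁻¹) := by
    rw [hset] at hsum''
    exact hsum''
  refine ⟨∑' v : ↥(degOne K)ᶜ, ((absNorm v.1.asIdeal : ℝ))⁻¹, fun s hs => ?_⟩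
  have hle : ∀ v : ↥(degOne K)ᶜ, primeTerm K s v.1 ≤ ((absNorm v.1.asIdeal : ℝ))⁻¹ := by
    intro v
    have h := primeTerm_anti K hs.le v.1
    have e1 : primeTerm K 1 v.1 = ((absNorm v.1.asIdeal : ℝ))⁻¹ := by
      rw [primeTerm, Real.rpow_neg_one]
    rwa [e1] at h
  have hs' : Summable (fun v : ↥(degOne K)ᶜ => primeTerm K s v.1) :=
    (summable_primeTerm K hs).subtype _
  exact ⟨tsum_nonneg fun v => (primeTerm_pos K s v.1).le, hs'.tsum_le_tsum hle hsum'⟩

/-- **FD-1**, universe-polymorphic form. -/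
theorem exists_bound_degOne_mass :
    ∃ B : ℝ, ∀ s : ℝ, 1 < s → s ≤ 2 →
      |(∑' v : {v : HeightOneSpectrum (𝓞 K) // (absNorm v.asIdeal).Prime},
          ((absNorm v.1.asIdeal : ℕ) : ℝ) ^ (-s)) - Real.log (1 / (s - 1))| ≤ B := by
  obtain ⟨B₁, hB₁⟩ := exists_bound_log_idealZeta K
  obtain ⟨C, hC⟩ := exists_bound_not_degOne K
  refine ⟨B₁ + 2 * primeZetaSum K 2 + C, fun s hs hs2 => ?_⟩
  have hsplit := (summable_primeTerm K hs).tsum_subtype_add_tsum_subtype_compl (degOne K)
  have hP := primeZetaSum_bounds K hs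
  obtain ⟨hC0, hC1⟩ := hC s hs
  have hB := abs_le.mp (hB₁ s hs hs2)
  have hP2 : 0 ≤ primeZetaSum K 2 := primeZetaSum_nonneg K 2
  have e : (∑' v : {v : HeightOneSpectrum (𝓞 K) // (absNorm v.asIdeal).Prime},
      ((absNorm v.1.asIdeal : ℕ) : ℝ) ^ (-s)) = ∑' v : ↥(degOne K), primeTerm K s v.1 := rfl
  rw [e]
  have htot : (∑' v : ↥(degOne K), primeTerm K s v.1) +
      ∑' v : ↥(degOne K)ᶜ, primeTerm K s v.1 = primeZetaSum K s := hsplit
  rw [abs_le]
  constructor <;> linarith [hB.1, hB.2, hP.1, hP.2]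

end Fermat.Agent.H33.Frob

namespace Fermat.Agent.H33

/-- **FD-1** in the interface form of P-FROB. -/
theorem degOneMassStatement : Fermat.Agent.H7.Frob.DegOneMassStatement := by
  intro F _ _
  exact Fermat.Agent.H33.Frob.exists_bound_degOne_mass F

end Fermat.Agent.H33
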